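/-
S37 / package P-G (helper20): the input `hT` of `H36.core_clause` (J's abstract Theorem T) for an
ARBITRARY `H74.Setup` over `ℚ̄` at a place over `ℓ`, every exponent prime to `ℓ`:

  `absT_of_setup`  : `H74.AbsTStatement ℚ̄ F O m`  for `¬ ℓ ∣ m`,
  `hT_of_setup`    : the same in the literal shape of the hypothesis `hT` of `core_clause`.

Assembly of landed J theorems only: `H60.unit_facts`, `H29.absT_of_clear`, `H49.exists_clear`
(for `x` and, through `H64.setup_inv`, for `x⁻¹`).
-/
import Fermat.Agent.S18.H29.Final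
import Fermat.Agent.S18.H49.C1Final
import Fermat.Agent.S18.H64.SetupInv
import Fermat.Agent.S18.H60.UnitFacts

set_option autoImplicit false

open AlgebraicCurve IntermediateField

noncomputable section

namespace Fermat.Agent.S37.H20

open Fermat.Agent.S18.H74

variable {ℓ : ℕ} [Fact ℓ.Prime] {F : Type*} [Field F] [Algebra (AlgebraicClosure ℚ) F]
  {O : ValuationSubring F} {x : F}

/-- **(E1)**: the abstract Theorem T for an arbitrary setup over `ℚ̄` at a place over `ℓ`, for
every exponent prime to `ℓ`. -/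
theorem absT_of_setup (A : ValuationSubring (AlgebraicClosure ℚ)) (hA : A.LiesOverPrime ℓ)
    (hS : Setup (AlgebraicClosure ℚ) A F O x) (m : ℕ) (hm : ¬ ℓ ∣ m) :
    AbsTStatement (AlgebraicClosure ℚ) F O m := by
  obtain ⟨hAtop, hm0, hmA, harch⟩ := Fermat.Agent.S18.H60.unit_facts A hA m hm
  exact Fermat.Agent.S18.H29.absT_of_clear hAtop harch hS m hm0 hmA
    (fun b hb u hu hord => Fermat.Agent.S18.H49.exists_clear hAtop hS b hb m hm0 u hu hord)
    (fun b hb u hu hord => Fermat.Agent.S18.H49.exists_clear hAtop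
      (Fermat.Agent.S18.H64.setup_inv hS) b hb m hm0 u hu hord)

/-- The hypothesis `hT` of `H36.core_clause`, verbatim, for an arbitrary setup: prime divisors of
a number `p` prime to `ℓ`. -/
theorem hT_of_setup (A : ValuationSubring (AlgebraicClosure ℚ)) (hA : A.LiesOverPrime ℓ)
    (hS : Setup (AlgebraicClosure ℚ) A F O x) (p : ℕ) (hp : ¬ ℓ ∣ p) :
    ∀ q : ℕ, q.Prime → q ∣ p → ∀ u : F, u - 1 ∈ O.nonunits →
      (∀ P : Place (AlgebraicClosure ℚ) F, (q : ℤ) ∣ P.ord u) → ∃ w : F, u = w ^ q :=
  fun q _ hqp u hu hord =>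
    absT_of_setup A hA hS q (fun h => hp (dvd_trans h hqp)) u hu hord

end Fermat.Agent.S37.H20
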