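/-
S37 / package P-G (helper20): the hypothesis structure `H36.RedHyp` of the abstract core, for an
ARBITRARY `H74.Setup K A F O x` of Program J, with `cls := H38.cls A x` (residue discs of `x`,
`none` = the disc at infinity).  All seven fields from landed J exports:

* `mem_iff`, `scale`     : fields of the setup;
* `value`                : places have residue field `K` (`S24.H94.exists_sub_mem_nonunits`);
* `prin`                 : `H38.prin_of_setup`;
* `inf_classes`          : `H38.range_cls_infinite_of_setup`;
* `one`                  : `H18.sum_ord_eq_zero_of_oneUnit` for `x` and (through `H64.setup_inv`)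
                           for `x⁻¹`, glued by `H38.one_of_discs`;
* `tau`                  : `H9C.tube_disc` for `x` and for `x⁻¹`.
-/
import Fermat.Agent.S37.H36.Core
import Fermat.Agent.S18.H38.Exports
import Fermat.Agent.S18.H18.OneUnitLeaf
import Fermat.Agent.S18.H64.SetupInv
import Fermat.Agent.S18.H9C.ExistsClear

set_option autoImplicit false

open AlgebraicCurve IntermediateField

noncomputable section

namespace Fermat.Agent.S37.H20

open Fermat.Agent.S18.H74

variable {K : Type*} [Field K] {A : ValuationSubring K} {F : Type*} [Field F] [Algebra K F]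
  {O : ValuationSubring F} {x : F}

/-- **(E3) in class form**: tube parameters on every class of `H38.cls A x`. -/
theorem exists_tau_cls [IsAlgClosed K] [CharZero K] (hA : A ≠ ⊤) (hS : Setup K A F O x)
    (P : Place K F) :
    ∃ τ : F, τ ∈ O ∧ τ⁻¹ ∈ O ∧ P.ord τ = 1 ∧
      ∀ P' : Place K F, Fermat.Agent.S18.H38.cls A x P' = Fermat.Agent.S18.H38.cls A x P →
        P' ≠ P → P'.ord τ = 0 := by
  have hfin : FiniteDimensional K⟮x⟯ F := hS.finite
  rcases hcls : Fermat.Agent.S18.H38.cls A x P with _ | r
  · -- the disc at infinity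
    have hP : InDisc A x⁻¹ 0 P := (Fermat.Agent.S18.H38.cls_eq_none_iff A x P).mp hcls
    obtain ⟨τ, hτ, hτO, h1, h2⟩ :=
      Fermat.Agent.S18.H9C.tube_disc hA (Fermat.Agent.S18.H64.setup_inv hS) 0 A.zero_mem P hP
    exact ⟨τ, hτ.1, hτO, h1, fun P' hP' hne =>
      h2 P' ((Fermat.Agent.S18.H38.cls_eq_none_iff A x P').mp hP') hne⟩
  · obtain ⟨⟨b, hb⟩, rfl⟩ := IsLocalRing.residue_surjective r
    have hP : InDisc A x b P := (Fermat.Agent.S18.H38.cls_eq_some_iff A x hb P).mp hcls
    obtain ⟨τ, hτ, hτO, h1, h2⟩ := Fermat.Agent.S18.H9C.tube_disc hA hS b hb P hP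
    exact ⟨τ, hτ.1, hτO, h1, fun P' hP' hne =>
      h2 P' ((Fermat.Agent.S18.H38.cls_eq_some_iff A x hb P').mp hP') hne⟩

/-- **(E5)**: every place of a setup has residue field `K`. -/
theorem exists_value_of_setup [IsAlgClosed K] (hS : Setup K A F O x) (P : Place K F) (f : F)
    (hf : f ∈ P.toValuationSubring) :
    ∃ a : K, f - algebraMap K F a ∈ P.toValuationSubring.nonunits := by
  have hfin : FiniteDimensional K⟮x⟯ F := hS.finite
  exact Fermat.Agent.S24.H94.exists_sub_mem_nonunits P.toValuationSubring P.algebraMap_mem'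
    P.ne_top' x (Fermat.Agent.S24.H94.isAlgebraic_adjoin x) hf

/-- **The `RedHyp` instance of an arbitrary setup** (all J exports of S37 in one structure). -/
theorem redHyp_of_setup [IsAlgClosed K] [CharZero K] (hA : A ≠ ⊤) (hS : Setup K A F O x) :
    Fermat.Agent.S37.H36.RedHyp A O (Fermat.Agent.S18.H38.cls (F := F) A x) where
  mem_iff := hS.mem_iff
  scale := hS.scale
  value := exists_value_of_setup hS
  prin := fun _ hf => Fermat.Agent.S18.H38.prin_of_setup hS hf
  inf_classes := Fermat.Agent.S18.H38.range_cls_infinite_of_setup hA hS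
  one := fun y hy D hD d => by
    have hfin : FiniteDimensional K⟮x⟯ F := hS.finite
    exact Fermat.Agent.S18.H38.one_of_discs A x O
      (fun b hb y hy => Fermat.Agent.S18.H18.sum_ord_eq_zero_of_oneUnit hA hS b hb y hy)
      (fun y hy => Fermat.Agent.S18.H18.sum_ord_eq_zero_of_oneUnit hA
        (Fermat.Agent.S18.H64.setup_inv hS) 0 A.zero_mem y hy)
      y hy D hD d
  tau := exists_tau_cls hA hS

end Fermat.Agent.S37.H20
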